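import Mathlib
import Fermat.Agent.LT.T1.Spec

/-!
# Row LT, tower T1, sub-leaf T1.08 `LeafDiscreteModCentre` (helper62)

OFF-MAIN.  Proves, VERBATIM against `Fermat/Agent/LT/T1/Spec.lean` (helper54):

`leafDiscreteModCentre62 K : Fermat.Agent.LT.T1.LeafDiscreteModCentre K`
(`= LocCompC K → AdeleLatticeC K → DiscreteModCentreC K`), for every number field `K`.

Method (Godement-Jacquet par. 10, coordinate form of `Ad : GL₂ → GL(M₂)`): the sixteen functions
`g ↦ g_{ki} (g⁻¹)_{jl}` on `GL₂(𝔸_K)` are continuous, invariant under multiplication by central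
elements, and take values in `K` on `GL₂(K)`.  A compact subset of `𝔸_K` contains finitely many
elements of the closed discrete subgroup `K`, so only finitely many sixteen-tuples occur; two
elements of `GL₂(K)` with the same sixteen-tuple are proportional.
No local compactness is needed: only `DiscreteTopology (princ K)` and `IsClosed (princ K)`.
-/

set_option autoImplicit false

open IsDedekindDomain NumberField
open scoped MatrixGroups

noncomputable section

namespace Fermat.Agent.LT.T1.H62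

open Fermat.Agent.LT.H556.A0 Fermat.Agent.LT.T1

variable (K : Type) [Field K] [NumberField K]

/-- Index set of the sixteen coefficient functions `(k,i),(j,l)`. -/
abbrev Idx62 : Type := (Fin 2 × Fin 2) × (Fin 2 × Fin 2)

/-- The coefficient `g_{ki} (g⁻¹)_{jl}` of `Ad g` (adelic). -/
def adCoeff62 (g : G K) (a : Idx62) : Adl K :=
  (g : Matrix (Fin 2) (Fin 2) (Adl K)) a.1.1 a.1.2 *
    ((g⁻¹ : G K) : Matrix (Fin 2) (Fin 2) (Adl K)) a.2.1 a.2.2

/-- The coefficient `γ_{ki} (γ⁻¹)_{jl}` of `Ad γ` (rational). -/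
def adCoeffRat62 (γ : GL (Fin 2) K) (a : Idx62) : K :=
  (γ : Matrix (Fin 2) (Fin 2) K) a.1.1 a.1.2 *
    ((γ⁻¹ : GL (Fin 2) K) : Matrix (Fin 2) (Fin 2) K) a.2.1 a.2.2

/-- The coefficient functions are continuous on `GL₂(𝔸_K)`. -/
theorem continuous_adCoeff62 (a : Idx62) : Continuous fun g : G K => adCoeff62 K g a := by
  unfold adCoeff62
  have h1 : Continuous fun g : G K => (g : Matrix (Fin 2) (Fin 2) (Adl K)) a.1.1 a.1.2 :=
    (Units.continuous_val).matrix_elem a.1.1 a.1.2
  have h2 : Continuous fun g : G K =>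
      ((g⁻¹ : G K) : Matrix (Fin 2) (Fin 2) (Adl K)) a.2.1 a.2.2 :=
    (Units.continuous_coe_inv).matrix_elem a.2.1 a.2.2
  exact h1.mul h2

/-- Entries of the diagonal embedding. -/
theorem ratG_apply62 (γ : GL (Fin 2) K) (i j : Fin 2) :
    ((ratG K γ : G K) : Matrix (Fin 2) (Fin 2) (Adl K)) i j
      = algebraMap K (Adl K) ((γ : Matrix (Fin 2) (Fin 2) K) i j) := rfl

/-- On `GL₂(K)` the adelic coefficients are the rational ones. -/
theorem adCoeff62_ratG (γ : GL (Fin 2) K) (a : Idx62) :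
    adCoeff62 K (ratG K γ) a = algebraMap K (Adl K) (adCoeffRat62 K γ a) := by
  unfold adCoeff62 adCoeffRat62
  rw [← map_inv, ratG_apply62, ratG_apply62, map_mul]

/-- The coefficients are invariant under left multiplication by central elements. -/
theorem adCoeff62_central_mul (z g : G K) (hz : IsCentral K z) (a : Idx62) :
    adCoeff62 K (z * g) a = adCoeff62 K g a := by
  obtain ⟨c, hc⟩ := hz
  have hW : c • ((z⁻¹ : G K) : Matrix (Fin 2) (Fin 2) (Adl K)) = 1 := by
    have h : (z : Matrix (Fin 2) (Fin 2) (Adl K)) *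
        ((z⁻¹ : G K) : Matrix (Fin 2) (Fin 2) (Adl K)) = 1 := by
      rw [← Units.val_mul, mul_inv_cancel, Units.val_one]
    rw [hc] at h
    rw [← h]
    ext i j
    simp [Matrix.diagonal_mul]
  have h1 : ((z * g : G K) : Matrix (Fin 2) (Fin 2) (Adl K))
      = c • (g : Matrix (Fin 2) (Fin 2) (Adl K)) := by
    rw [Units.val_mul, hc]
    ext i j
    simp [Matrix.diagonal_mul]
  have h2 : c • (((z * g)⁻¹ : G K) : Matrix (Fin 2) (Fin 2) (Adl K))
      = ((g⁻¹ : G K) : Matrix (Fin 2) (Fin 2) (Adl K)) := by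
    rw [mul_inv_rev, Units.val_mul, ← Matrix.mul_smul, hW, mul_one]
  unfold adCoeff62
  rw [h1, ← h2]
  simp only [Matrix.smul_apply, smul_eq_mul]
  ring

/-- A compact subset of `𝔸_K` contains only finitely many principal adeles. -/
theorem finite_rat_mem_compact62 (hd : DiscreteTopology (princ K))
    (hc : IsClosed (princ K : Set (Adl K))) {C : Set (Adl K)} (hC : IsCompact C) :
    {ξ : K | algebraMap K (Adl K) ξ ∈ C}.Finite := by
  have hcomp : IsCompact (C ∩ (princ K : Set (Adl K))) := hC.inter_right hc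
  have hdisc : IsDiscrete (C ∩ (princ K : Set (Adl K))) :=
    (isDiscrete_iff_discreteTopology.mpr
      (show DiscreteTopology ↥(princ K : Set (Adl K)) from hd)).mono Set.inter_subset_right
  have hfin : (C ∩ (princ K : Set (Adl K))).Finite := hcomp.finite hdisc
  have hpre : ((algebraMap K (Adl K)) ⁻¹' (C ∩ (princ K : Set (Adl K)))).Finite :=
    hfin.preimage ((NumberField.AdeleRing.algebraMap_injective (𝓞 K) K).injOn)
  refine hpre.subset ?_
  intro ξ hξ
  exact ⟨hξ, ⟨ξ, rfl⟩⟩

/-- Two elements of `GL₂(K)` with the same coefficients are proportional. -/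
theorem proportional_of_adCoeffRat_eq62 (γ σ : GL (Fin 2) K)
    (h : ∀ a : Idx62, adCoeffRat62 K γ a = adCoeffRat62 K σ a) :
    ∃ c : K, (γ : Matrix (Fin 2) (Fin 2) K) = c • (σ : Matrix (Fin 2) (Fin 2) K) := by
  have hne : ∃ j l : Fin 2, ((γ⁻¹ : GL (Fin 2) K) : Matrix (Fin 2) (Fin 2) K) j l ≠ 0 := by
    by_contra hcon
    simp only [not_exists, not_not] at hcon
    have h0 : ((γ⁻¹ : GL (Fin 2) K) : Matrix (Fin 2) (Fin 2) K) = 0 := by
      ext j l
      exact hcon j l
    have h1 : (γ : Matrix (Fin 2) (Fin 2) K) *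
        ((γ⁻¹ : GL (Fin 2) K) : Matrix (Fin 2) (Fin 2) K) = 1 := by
      rw [← Units.val_mul, mul_inv_cancel, Units.val_one]
    rw [h0, mul_zero] at h1
    have := congrFun (congrFun h1 0) 0
    simp at this
  obtain ⟨j, l, hjl⟩ := hne
  refine ⟨((σ⁻¹ : GL (Fin 2) K) : Matrix (Fin 2) (Fin 2) K) j l /
    ((γ⁻¹ : GL (Fin 2) K) : Matrix (Fin 2) (Fin 2) K) j l, ?_⟩
  ext k i
  have hki := h ((k, i), (j, l))
  unfold adCoeffRat62 at hki
  simp only at hki
  rw [Matrix.smul_apply, smul_eq_mul]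
  field_simp
  rw [hki]
  ring

/-- **T1.08**: `PGL₂(K)` is discrete in `PGL₂(𝔸_K)`, elementwise form; only the closed discrete
subgroup `K ⊂ 𝔸_K` is used. -/
theorem discreteModCentreC_of_lattice62 (hd : DiscreteTopology (princ K))
    (hc : IsClosed (princ K : Set (Adl K))) : DiscreteModCentreC K := by
  classical
  intro C hC
  -- the finite sets of possible values of the sixteen coefficients
  have hF : ∀ a : Idx62,
      {ξ : K | algebraMap K (Adl K) ξ ∈ (fun g : G K => adCoeff62 K g a) '' C}.Finite :=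
    fun a => finite_rat_mem_compact62 K hd hc (hC.image (continuous_adCoeff62 K a))
  have hT : (Set.univ.pi fun a : Idx62 =>
      {ξ : K | algebraMap K (Adl K) ξ ∈ (fun g : G K => adCoeff62 K g a) '' C}).Finite :=
    Set.Finite.pi hF
  let f : (Idx62 → K) → GL (Fin 2) K := fun t =>
    if h : ∃ γ : GL (Fin 2) K, adCoeffRat62 K γ = t then h.choose else 1
  refine ⟨hT.toFinset.image f, ?_⟩
  rintro γ ⟨z, hz, hzC⟩
  have hmem : adCoeffRat62 K γ ∈ (Set.univ.pi fun a : Idx62 =>
      {ξ : K | algebraMap K (Adl K) ξ ∈ (fun g : G K => adCoeff62 K g a) '' C}) := by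
    intro a _
    refine ⟨z * ratG K γ, hzC, ?_⟩
    show adCoeff62 K (z * ratG K γ) a = _
    rw [adCoeff62_central_mul K z _ hz, adCoeff62_ratG]
  have hex : ∃ γ' : GL (Fin 2) K, adCoeffRat62 K γ' = adCoeffRat62 K γ := ⟨γ, rfl⟩
  have hf : adCoeffRat62 K (f (adCoeffRat62 K γ)) = adCoeffRat62 K γ := by
    have : f (adCoeffRat62 K γ) = hex.choose := dif_pos hex
    rw [this]
    exact hex.choose_spec
  refine ⟨f (adCoeffRat62 K γ), Finset.mem_image_of_mem _ (hT.mem_toFinset.2 hmem), ?_⟩
  exact proportional_of_adCoeffRat_eq62 K γ _ (fun a => (congrFun hf a).symm)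

/-- **T1.08 `LeafDiscreteModCentre`, VERBATIM** (`T1/Spec.lean` of helper54). -/
theorem leafDiscreteModCentre62 : LeafDiscreteModCentre K :=
  fun _ hAL => discreteModCentreC_of_lattice62 K hAL.1 hAL.2.1

end Fermat.Agent.LT.T1.H62

end
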